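/-
P-CFT / FRAME / SH-DS (helper96): abstract dimension shifting
(`Fermat.Agent.H97.Shap.DimShiftStatement`, `DimShiftEqStatement`).
-/
import Fermat.Agent.H97.Shap.Interfaces

set_option autoImplicit false

universe u

open CategoryTheory HomologicalComplex

namespace Fermat.Agent.H96.Shap

section Generic

variable {C ι : Type*} [Category C] [Abelian C] {c : ComplexShape ι}
  {S₁ S₂ : ShortComplex (HomologicalComplex C c)} (φ : S₁ ⟶ S₂)
  (hS₁ : S₁.ShortExact) (hS₂ : S₂.ShortExact)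

include hS₁ hS₂ in
/-- Epi part of the dimension shifting step. -/
theorem epi_homologyMap_τ₁_of_rel (i j : ι) (hij : c.Rel i j)
    (h₃ : Epi (homologyMap φ.τ₃ i)) (z₂ : Limits.IsZero (S₂.X₂.homology j)) :
    Epi (homologyMap φ.τ₁ j) := by
  have hδ₂ : Epi (hS₂.δ i j hij) := hS₂.epi_δ i j hij z₂
  have hnat := HomologySequence.δ_naturality φ hS₁ hS₂ i j hij
  have : Epi (hS₁.δ i j hij ≫ homologyMap φ.τ₁ j) := by
    rw [hnat]
    exact epi_comp _ _
  exact epi_of_epi (hS₁.δ i j hij) _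

include hS₁ hS₂ in
/-- Mono part of the dimension shifting step. -/
theorem mono_homologyMap_τ₁_of_rel (i j : ι) (hij : c.Rel i j)
    (h₂ : Epi (homologyMap φ.τ₂ i)) (h₃ : Mono (homologyMap φ.τ₃ i))
    (z₁ : Limits.IsZero (S₁.X₂.homology j)) :
    Mono (homologyMap φ.τ₁ j) := by
  have h₄ : Mono (homologyMap φ.τ₂ j) := ⟨fun _ _ _ => z₁.eq_of_tgt _ _⟩
  exact Abelian.mono_of_epi_of_mono_of_mono'' (k := 1) (n := 5) (by omega)
    (HomologySequence.composableArrows₅_exact hS₁ i j hij)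
    (HomologySequence.composableArrows₅_exact hS₂ i j hij)
    (HomologySequence.mapComposableArrows₅ φ hS₁ hS₂ i j hij) 1 2 3 4 rfl rfl rfl rfl h₂ h₃ h₄

include hS₁ hS₂ in
theorem isIso_homologyMap_τ₁_of_rel (i j : ι) (hij : c.Rel i j)
    (h₂ : IsIso (homologyMap φ.τ₂ i)) (h₃ : IsIso (homologyMap φ.τ₃ i))
    (z₁ : Limits.IsZero (S₁.X₂.homology j)) (z₂ : Limits.IsZero (S₂.X₂.homology j)) :
    IsIso (homologyMap φ.τ₁ j) := by
  have := mono_homologyMap_τ₁_of_rel φ hS₁ hS₂ i j hij inferInstance inferInstance z₁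
  have := epi_homologyMap_τ₁_of_rel φ hS₁ hS₂ i j hij inferInstance z₂
  exact isIso_of_mono_of_epi _

end Generic

/-- **SH-DS (a)** -/
theorem dimShift : Fermat.Agent.H97.Shap.DimShiftStatement.{u} := by
  intro k _ C _ _ P F F' η H1 H2 H3 n
  induction n with
  | zero => exact H3
  | succ n ih =>
    intro A hA
    obtain ⟨I, Q, f, g, w, hS, hI, hQ, hz⟩ := H2 A hA
    obtain ⟨w₁, w₂, hS₁, hS₂⟩ := H1 f g w hS hI
    let φ : ShortComplex.mk (F.map f) (F.map g) w₁ ⟶ ShortComplex.mk (F'.map f) (F'.map g) w₂ :=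
      { τ₁ := η.app A
        τ₂ := η.app I
        τ₃ := η.app Q
        comm₁₂ := (η.naturality f).symm
        comm₂₃ := (η.naturality g).symm }
    exact isIso_homologyMap_τ₁_of_rel φ hS₁ hS₂ n (n + 1) rfl (ih I hI) (ih Q hQ)
      (hz n).1 (hz n).2

/-- **SH-DS (b)** -/
theorem dimShiftEq : Fermat.Agent.H97.Shap.DimShiftEqStatement.{u} := by
  intro k _ C _ _ P F F' η η' H1 H2 H3 n
  induction n with
  | zero => exact H3
  | succ n ih =>
    intro A hA
    obtain ⟨I, Q, f, g, w, hS, hI, hQ, hz⟩ := H2 A hA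
    obtain ⟨w₁, w₂, hS₁, hS₂⟩ := H1 f g w hS hI
    let φ : ShortComplex.mk (F.map f) (F.map g) w₁ ⟶ ShortComplex.mk (F'.map f) (F'.map g) w₂ :=
      { τ₁ := η.app A
        τ₂ := η.app I
        τ₃ := η.app Q
        comm₁₂ := (η.naturality f).symm
        comm₂₃ := (η.naturality g).symm }
    let φ' : ShortComplex.mk (F.map f) (F.map g) w₁ ⟶ ShortComplex.mk (F'.map f) (F'.map g) w₂ :=
      { τ₁ := η'.app A
        τ₂ := η'.app I
        τ₃ := η'.app Q
        comm₁₂ := (η'.naturality f).symm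
        comm₂₃ := (η'.naturality g).symm }
    have hδ : Epi (hS₁.δ n (n + 1) rfl) := hS₁.epi_δ n (n + 1) rfl (hz n)
    have h1 := HomologySequence.δ_naturality φ hS₁ hS₂ n (n + 1) rfl
    have h2 := HomologySequence.δ_naturality φ' hS₁ hS₂ n (n + 1) rfl
    have h3 : homologyMap φ.τ₃ n = homologyMap φ'.τ₃ n := ih Q hQ
    rw [← cancel_epi (hS₁.δ n (n + 1) rfl)]
    exact h1.trans ((congrArg (· ≫ hS₂.δ n (n + 1) rfl) h3).trans h2.symm)

end Fermat.Agent.H96.Shap
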